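/-
CFT / LC — level-constant cochains versus finite levels (abstract part).

A `LevelBasis` on a group `G` is a directed family of normal subgroups of finite index
("the open normal subgroups").  A cochain is *level-constant* if it is right-invariant under
some member of the family; a module is *smooth* if every element is fixed by some member.
This file proves, at the level of explicit cochains (so that it applies to the Prelude's
`levelCocycles₂ / levelCoboundaries₂` and to Mathlib's `cocycles₂ / coboundaries₂` alike):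

* `exists_isLevel₁ / exists_isLevel₂` : a level-constant cochain with values in a smooth module
  is "of level `N`" for some member `N` (constant on cosets, values `N`-invariant);
* `exists_isLevel₁_of_d_eq` : inflation is injective — a 2-cochain of level `N` which is the
  coboundary of a level-constant 1-cochain is the coboundary of a 1-cochain of level `N`,
  provided level-constant 1-cocycles of `N` are coboundaries (Hilbert 90 for `N`);
* `kummer_injective / kummer_surjective / kummer_H1` : the Kummer sequence on level-constant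
  cochains.
-/
import Mathlib

set_option autoImplicit false

universe u v w w'

namespace Fermat.Agent.CFT.LC

open groupCohomology

/-- A directed family of finite-index normal subgroups ("open normal subgroups"). -/
structure LevelBasis (G : Type u) [Group G] where
  /-- membership predicate of the family -/
  mem : Subgroup G → Prop
  normal : ∀ N, mem N → N.Normal
  finiteIndex : ∀ N, mem N → N.FiniteIndex
  directed : ∀ N N', mem N → mem N' → ∃ N'', mem N'' ∧ N'' ≤ N ⊓ N'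
  nonempty : ∃ N, mem N

variable {G : Type u} [Group G]

namespace LevelBasis

/-- A one-variable cochain is level-constant. -/
def Const₁ (𝒩 : LevelBasis G) {X : Type*} (f : G → X) : Prop :=
  ∃ N, 𝒩.mem N ∧ ∀ g s, s ∈ N → f (g * s) = f g

/-- A two-variable cochain is level-constant. -/
def Const₂ (𝒩 : LevelBasis G) {X : Type*} (f : G × G → X) : Prop :=
  ∃ N, 𝒩.mem N ∧ ∀ g g' s s', s ∈ N → s' ∈ N → f (g * s, g' * s') = f (g, g')

/-- Every element of the module is fixed by a member of the family. -/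
def Smooth (𝒩 : LevelBasis G) {k : Type v} [CommRing k] (A : Rep.{w} k G) : Prop :=
  ∀ a : A, ∃ N, 𝒩.mem N ∧ ∀ s ∈ N, A.ρ s a = a

lemma Const₁.comp {𝒩 : LevelBasis G} {X Y : Type*} {f : G → X} (hf : 𝒩.Const₁ f) (φ : X → Y) :
    𝒩.Const₁ (φ ∘ f) := by
  obtain ⟨N, hN, h⟩ := hf
  exact ⟨N, hN, fun g s hs => by simp only [Function.comp_apply, h g s hs]⟩

lemma Const₂.comp {𝒩 : LevelBasis G} {X Y : Type*} {f : G × G → X} (hf : 𝒩.Const₂ f)
    (φ : X → Y) : 𝒩.Const₂ (φ ∘ f) := by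
  obtain ⟨N, hN, h⟩ := hf
  exact ⟨N, hN, fun g g' s s' hs hs' => by simp only [Function.comp_apply, h g g' s s' hs hs']⟩

lemma const₁_const (𝒩 : LevelBasis G) {X : Type*} (x : X) : 𝒩.Const₁ (fun _ : G => x) := by
  obtain ⟨N, hN⟩ := 𝒩.nonempty
  exact ⟨N, hN, fun _ _ _ => rfl⟩

lemma Const₁.map₂ {𝒩 : LevelBasis G} {X Y Z : Type*} {f : G → X} {f' : G → Y}
    (hf : 𝒩.Const₁ f) (hf' : 𝒩.Const₁ f') (φ : X → Y → Z) :
    𝒩.Const₁ (fun g => φ (f g) (f' g)) := by
  obtain ⟨N, hN, h⟩ := hf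
  obtain ⟨N', hN', h'⟩ := hf'
  obtain ⟨N'', hN'', hle⟩ := 𝒩.directed N N' hN hN'
  exact ⟨N'', hN'', fun g s hs => by
    show φ (f (g * s)) (f' (g * s)) = φ (f g) (f' g)
    rw [h g s (hle hs).1, h' g s (hle hs).2]⟩

lemma Const₂.map₂ {𝒩 : LevelBasis G} {X Y Z : Type*} {f : G × G → X} {f' : G × G → Y}
    (hf : 𝒩.Const₂ f) (hf' : 𝒩.Const₂ f') (φ : X → Y → Z) :
    𝒩.Const₂ (fun g => φ (f g) (f' g)) := by
  obtain ⟨N, hN, h⟩ := hf
  obtain ⟨N', hN', h'⟩ := hf'
  obtain ⟨N'', hN'', hle⟩ := 𝒩.directed N N' hN hN'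
  exact ⟨N'', hN'', fun g g' s s' hs hs' => by
    show φ (f (g * s, g' * s')) (f' (g * s, g' * s')) = φ (f (g, g')) (f' (g, g'))
    rw [h g g' s s' (hle hs).1 (hle hs').1, h' g g' s s' (hle hs).2 (hle hs').2]⟩

/-- A finite set of elements of a smooth module is fixed by a common member below a given one. -/
lemma Smooth.exists_fixing {𝒩 : LevelBasis G} {k : Type v} [CommRing k] {A : Rep.{w} k G}
    (hA : 𝒩.Smooth A) {V : Set A} (hV : V.Finite) {N₀ : Subgroup G} (hN₀ : 𝒩.mem N₀) :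
    ∃ N, 𝒩.mem N ∧ N ≤ N₀ ∧ ∀ a ∈ V, ∀ s ∈ N, A.ρ s a = a := by
  induction V, hV using Set.Finite.induction_on with
  | empty => exact ⟨N₀, hN₀, le_rfl, fun a ha => absurd ha (Set.notMem_empty a)⟩
  | @insert a V _ _ ih =>
    obtain ⟨N, hN, hle, hfix⟩ := ih
    obtain ⟨N', hN', hfix'⟩ := hA a
    obtain ⟨N'', hN'', hle''⟩ := 𝒩.directed N N' hN hN'
    refine ⟨N'', hN'', fun s hs => hle (hle'' hs).1, fun b hb s hs => ?_⟩
    rcases Set.mem_insert_iff.1 hb with rfl | hb
    · exact hfix' s (hle'' hs).2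
    · exact hfix b hb s (hle'' hs).1

end LevelBasis

section Level

variable {k : Type v} [CommRing k] (A : Rep.{w} k G)

/-- A one-variable cochain of level `N`: constant on cosets, with `N`-invariant values. -/
def IsLevel₁ (N : Subgroup G) (x : G → A) : Prop :=
  (∀ g s, s ∈ N → x (g * s) = x g) ∧ (∀ g s, s ∈ N → A.ρ s (x g) = x g)

/-- A two-variable cochain of level `N`: constant on cosets, with `N`-invariant values. -/
def IsLevel₂ (N : Subgroup G) (f : G × G → A) : Prop :=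
  (∀ g g' s s', s ∈ N → s' ∈ N → f (g * s, g' * s') = f (g, g')) ∧
    (∀ g g' s, s ∈ N → A.ρ s (f (g, g')) = f (g, g'))

variable {A}

lemma IsLevel₁.mono {N N' : Subgroup G} {x : G → A} (h : IsLevel₁ A N x) (hle : N' ≤ N) :
    IsLevel₁ A N' x :=
  ⟨fun g s hs => h.1 g s (hle hs), fun g s hs => h.2 g s (hle hs)⟩

lemma IsLevel₂.mono {N N' : Subgroup G} {f : G × G → A} (h : IsLevel₂ A N f) (hle : N' ≤ N) :
    IsLevel₂ A N' f :=
  ⟨fun g g' s s' hs hs' => h.1 g g' s s' (hle hs) (hle hs'),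
    fun g g' s hs => h.2 g g' s (hle hs)⟩

lemma IsLevel₁.const₁ {𝒩 : LevelBasis G} {N : Subgroup G} (hN : 𝒩.mem N) {x : G → A}
    (h : IsLevel₁ A N x) : 𝒩.Const₁ x :=
  ⟨N, hN, h.1⟩

lemma IsLevel₂.const₂ {𝒩 : LevelBasis G} {N : Subgroup G} (hN : 𝒩.mem N) {f : G × G → A}
    (h : IsLevel₂ A N f) : 𝒩.Const₂ f :=
  ⟨N, hN, h.1⟩

/-- Left invariance of a level-`N` cochain (`N` normal). -/
lemma IsLevel₁.left {N : Subgroup G} [N.Normal] {x : G → A} (h : IsLevel₁ A N x) (g s : G)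
    (hs : s ∈ N) : x (s * g) = x g := by
  have h2 := h.1 g (g⁻¹ * s * g) (Subgroup.Normal.conj_mem' ‹_› s hs g)
  rwa [mul_assoc, mul_inv_cancel_left] at h2

/-- Left invariance of a level-`N` cochain (`N` normal). -/
lemma IsLevel₂.left {N : Subgroup G} [N.Normal] {f : G × G → A} (h : IsLevel₂ A N f)
    (g g' s s' : G) (hs : s ∈ N) (hs' : s' ∈ N) : f (s * g, s' * g') = f (g, g') := by
  have h2 := h.1 g g' (g⁻¹ * s * g) (g'⁻¹ * s' * g') (Subgroup.Normal.conj_mem' ‹_› s hs g)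
    (Subgroup.Normal.conj_mem' ‹_› s' hs' g')
  rwa [mul_assoc, mul_inv_cancel_left, mul_assoc, mul_inv_cancel_left] at h2

lemma ρ_conj_fixed {N : Subgroup G} [N.Normal] {a : A} (ha : ∀ s ∈ N, A.ρ s a = a) (g s : G)
    (hs : s ∈ N) : A.ρ s (A.ρ g a) = A.ρ g a := by
  have h1 : s * g = g * (g⁻¹ * s * g) := by group
  have h2 := ha _ (Subgroup.Normal.conj_mem' ‹_› s hs g)
  calc A.ρ s (A.ρ g a) = A.ρ (s * g) a := by rw [map_mul]; rfl
    _ = A.ρ g (A.ρ (g⁻¹ * s * g) a) := by rw [h1, map_mul]; rfl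
    _ = A.ρ g a := by rw [h2]

/-- The coboundary of a 1-cochain, as an explicit function. -/
def dOne (A : Rep.{w} k G) (x : G → A) : G × G → A :=
  fun p => A.ρ p.1 (x p.2) - x (p.1 * p.2) + x p.1

/-- The coboundary of an element, as an explicit function. -/
def dZero (A : Rep.{w} k G) (a : A) : G → A := fun g => A.ρ g a - a

@[simp] lemma dOne_apply (x : G → A) (g h : G) :
    dOne A x (g, h) = A.ρ g (x h) - x (g * h) + x g := rfl

@[simp] lemma dZero_apply (a : A) (g : G) : dZero A a g = A.ρ g a - a := rfl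

lemma dOne_dZero (a : A) : dOne A (dZero A a) = 0 := by
  funext ⟨g, h⟩
  simp only [dOne_apply, dZero_apply, map_sub, map_mul, Module.End.mul_apply, Pi.zero_apply]
  abel

lemma dOne_sub (x y : G → A) : dOne A (x - y) = dOne A x - dOne A y := by
  funext ⟨g, h⟩
  simp only [dOne_apply, Pi.sub_apply, map_sub]
  abel

lemma dOne_add (x y : G → A) : dOne A (x + y) = dOne A x + dOne A y := by
  funext ⟨g, h⟩
  simp only [dOne_apply, Pi.add_apply, map_add]
  abel

lemma IsLevel₁.dOne {N : Subgroup G} [N.Normal] {x : G → A} (h : IsLevel₁ A N x) :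
    IsLevel₂ A N (dOne A x) := by
  refine ⟨fun g g' s s' hs hs' => ?_, fun g g' s hs => ?_⟩
  · have h1 : g * s * (g' * s') = g * g' * (g'⁻¹ * s * g' * s') := by group
    have h2 : g'⁻¹ * s * g' * s' ∈ N :=
      N.mul_mem (Subgroup.Normal.conj_mem' ‹_› s hs g') hs'
    simp only [dOne_apply]
    rw [h1, h.1 (g * g') _ h2, h.1 g s hs, h.1 g' s' hs', map_mul, Module.End.mul_apply,
      h.2 g' s hs]
  · simp only [dOne_apply, map_add, map_sub]
    rw [ρ_conj_fixed (fun t ht => h.2 g' t ht) g s hs, h.2 _ s hs, h.2 _ s hs]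

lemma isLevel₁_dZero {N : Subgroup G} [N.Normal] {a : A} (ha : ∀ s ∈ N, A.ρ s a = a) :
    IsLevel₁ A N (dZero A a) := by
  refine ⟨fun g s hs => ?_, fun g s hs => ?_⟩
  · simp only [dZero_apply, map_mul, Module.End.mul_apply, ha s hs]
  · simp only [dZero_apply, map_sub, ρ_conj_fixed ha g s hs, ha s hs]

end Level

section Exists

variable {k : Type v} [CommRing k] {A : Rep.{w} k G}

lemma range_finite_of_const₁ {X : Type*} {N : Subgroup G} [N.FiniteIndex] {f : G → X}
    (h : ∀ g s, s ∈ N → f (g * s) = f g) : (Set.range f).Finite := by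
  have : Finite (G ⧸ N) := Subgroup.finite_quotient_of_finiteIndex
  refine (Set.finite_range (fun q : G ⧸ N => f q.out)).subset ?_
  rintro _ ⟨g, rfl⟩
  obtain ⟨s, hs⟩ := QuotientGroup.mk_out_eq_mul N g
  refine ⟨(g : G ⧸ N), ?_⟩
  simp only
  rw [hs, h g s s.2]

lemma range_finite_of_const₂ {X : Type*} {N : Subgroup G} [N.FiniteIndex] {f : G × G → X}
    (h : ∀ g g' s s', s ∈ N → s' ∈ N → f (g * s, g' * s') = f (g, g')) :
    (Set.range f).Finite := by
  have : Finite (G ⧸ N) := Subgroup.finite_quotient_of_finiteIndex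
  refine (Set.finite_range (fun q : (G ⧸ N) × (G ⧸ N) => f (q.1.out, q.2.out))).subset ?_
  rintro _ ⟨⟨g, g'⟩, rfl⟩
  obtain ⟨s, hs⟩ := QuotientGroup.mk_out_eq_mul N g
  obtain ⟨s', hs'⟩ := QuotientGroup.mk_out_eq_mul N g'
  refine ⟨((g : G ⧸ N), (g' : G ⧸ N)), ?_⟩
  simp only
  rw [hs, hs', h g g' s s' s.2 s'.2]

/-- A level-constant 1-cochain with values in a smooth module has a level. -/
theorem LevelBasis.exists_isLevel₁ (𝒩 : LevelBasis G) (hA : 𝒩.Smooth A) {x : G → A}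
    (hx : 𝒩.Const₁ x) {N₀ : Subgroup G} (hN₀ : 𝒩.mem N₀) :
    ∃ N, 𝒩.mem N ∧ N ≤ N₀ ∧ IsLevel₁ A N x := by
  obtain ⟨N₁, hN₁, h⟩ := hx
  have := 𝒩.finiteIndex N₁ hN₁
  obtain ⟨N₂, hN₂, hle₂⟩ := 𝒩.directed N₀ N₁ hN₀ hN₁
  obtain ⟨N, hN, hle, hfix⟩ := hA.exists_fixing (range_finite_of_const₁ h) hN₂
  exact ⟨N, hN, fun s hs => (hle₂ (hle hs)).1,
    fun g s hs => h g s (hle₂ (hle hs)).2, fun g s hs => hfix _ ⟨g, rfl⟩ s hs⟩

/-- A level-constant 2-cochain with values in a smooth module has a level. -/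
theorem LevelBasis.exists_isLevel₂ (𝒩 : LevelBasis G) (hA : 𝒩.Smooth A) {f : G × G → A}
    (hf : 𝒩.Const₂ f) {N₀ : Subgroup G} (hN₀ : 𝒩.mem N₀) :
    ∃ N, 𝒩.mem N ∧ N ≤ N₀ ∧ IsLevel₂ A N f := by
  obtain ⟨N₁, hN₁, h⟩ := hf
  have := 𝒩.finiteIndex N₁ hN₁
  obtain ⟨N₂, hN₂, hle₂⟩ := 𝒩.directed N₀ N₁ hN₀ hN₁
  obtain ⟨N, hN, hle, hfix⟩ := hA.exists_fixing (range_finite_of_const₂ h) hN₂
  exact ⟨N, hN, fun s hs => (hle₂ (hle hs)).1,
    fun g g' s s' hs hs' => h g g' s s' (hle₂ (hle hs)).2 (hle₂ (hle hs')).2,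
    fun g g' s hs => hfix _ ⟨(g, g'), rfl⟩ s hs⟩

/-- The coboundary of a level-constant 1-cochain with values in a smooth module is
level-constant. -/
theorem LevelBasis.Const₁.dOne {𝒩 : LevelBasis G} (hA : 𝒩.Smooth A) {x : G → A}
    (hx : 𝒩.Const₁ x) : 𝒩.Const₂ (dOne A x) := by
  obtain ⟨N₀, hN₀⟩ := 𝒩.nonempty
  obtain ⟨N, hN, -, hl⟩ := 𝒩.exists_isLevel₁ hA hx hN₀
  have := 𝒩.normal N hN
  exact hl.dOne.const₂ hN

/-- The coboundary of an element of a smooth module is level-constant. -/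
theorem LevelBasis.const₁_dZero {𝒩 : LevelBasis G} (hA : 𝒩.Smooth A) (a : A) :
    𝒩.Const₁ (dZero A a) := by
  obtain ⟨N, hN, ha⟩ := hA a
  have := 𝒩.normal N hN
  exact (isLevel₁_dZero ha).const₁ hN

end Exists

section Mathlib

variable {k G : Type u} [CommRing k] [Group G] (A : Rep.{u} k G)

lemma d₁₂_hom_eq_dOne (x : G → A) : (d₁₂ A).hom x = dOne A x := by
  funext p
  simp [dOne, d₁₂]

lemma mem_cocycles₂_dOne (x : G → A) : dOne A x ∈ cocycles₂ A := by
  rw [← d₁₂_hom_eq_dOne]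
  exact d₁₂_apply_mem_cocycles₂ x

end Mathlib

end Fermat.Agent.CFT.LC
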