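/-
CFT / LC — inflation is injective on level-constant cochains, and the Kummer sequence.

All statements are about explicit cochains (`dOne`, `dZero` of `LC/Basic.lean`).
-/
import Fermat.Agent.CFT.LC.Basic

set_option autoImplicit false

universe u v w v' w'

namespace Fermat.Agent.CFT.LC

open groupCohomology

variable {G : Type u} [Group G]

section H90

variable {k : Type v} [CommRing k]

/-- Hilbert 90 on level-constant cochains of `G`: level-constant 1-cocycles are coboundaries. -/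
def H90 (𝒩 : LevelBasis G) (A : Rep.{w} k G) : Prop :=
  ∀ y : G → A, 𝒩.Const₁ y → (∀ g h, y (g * h) = A.ρ g (y h) + y g) →
    ∃ a : A, ∀ g, y g = A.ρ g a - a

/-- Hilbert 90 on level-constant cochains of a subgroup `N`. -/
def H90On (𝒩 : LevelBasis G) (A : Rep.{w} k G) (N : Subgroup G) : Prop :=
  ∀ y : N → A, (∃ N', 𝒩.mem N' ∧ ∀ t s : N, (s : G) ∈ N' → y (t * s) = y t) →
    (∀ s t : N, y (s * t) = A.ρ (s : G) (y t) + y s) →
    ∃ a : A, ∀ s : N, y s = A.ρ (s : G) a - a

variable {A : Rep.{w} k G}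

/-- The 2-cocycle identity for `dOne`. -/
lemma dOne_cocycle (x : G → A) (g h j : G) :
    dOne A x (g * h, j) + dOne A x (g, h) = A.ρ g (dOne A x (h, j)) + dOne A x (g, h * j) := by
  simp only [dOne_apply, map_add, map_sub, map_mul, Module.End.mul_apply, mul_assoc]
  abel

/-- **Inflation is injective.**  A 2-cochain of level `N` which is the coboundary of a
level-constant 1-cochain is the coboundary of a 1-cochain of level `N`, if Hilbert 90 holds
for level-constant cochains of `N`. -/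
theorem exists_isLevel₁_of_dOne_eq (𝒩 : LevelBasis G) {N : Subgroup G} (hN : 𝒩.mem N)
    (h90 : H90On 𝒩 A N) {f : G × G → A} (hf : IsLevel₂ A N f) {x : G → A} (hx : 𝒩.Const₁ x)
    (hd : dOne A x = f) : ∃ x' : G → A, IsLevel₁ A N x' ∧ dOne A x' = f := by
  have hNn := 𝒩.normal N hN
  have hf11 : f (1, 1) = x 1 := by rw [← hd]; simp [dOne]
  have hcfix : ∀ s ∈ N, A.ρ s (x 1) = x 1 := fun s hs => by
    rw [← hf11]; exact hf.2 1 1 s hs
  have h1 : ∀ s ∈ N, ∀ h, A.ρ s (x h) - x (s * h) + x s = x 1 := by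
    intro s hs h
    have h3 := hf.1 1 h s 1 hs N.one_mem
    rw [one_mul, mul_one] at h3
    have e1 : f (s, h) = A.ρ s (x h) - x (s * h) + x s := by rw [← hd]; rfl
    have e2 : f (1, h) = x 1 := by rw [← hd]; simp [dOne]
    rw [← e1, h3, e2]
  have h2 : ∀ g, ∀ s ∈ N, A.ρ g (x s) - x (g * s) + x g = A.ρ g (x 1) := by
    intro g s hs
    have h3 := hf.1 g 1 1 s N.one_mem hs
    rw [mul_one, one_mul] at h3
    have e1 : f (g, s) = A.ρ g (x s) - x (g * s) + x g := by rw [← hd]; rfl
    have e2 : f (g, 1) = A.ρ g (x 1) := by rw [← hd]; simp [dOne]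
    rw [← e1, h3, e2]
  obtain ⟨N₁, hN₁, hx₁⟩ := hx
  obtain ⟨a, ha⟩ := h90 (fun s : N => x s - x 1)
    ⟨N₁, hN₁, fun t s hs => by
      show x ((t * s : N) : G) - x 1 = x t - x 1
      rw [Subgroup.coe_mul, hx₁ _ _ hs]⟩
    (fun s t => by
      show x ((s * t : N) : G) - x 1 = A.ρ (s : G) (x t - x 1) + (x s - x 1)
      have h3 := h1 s s.2 t
      rw [Subgroup.coe_mul, map_sub, hcfix s s.2]
      rw [← h3]; abel)
  have hxs : ∀ s ∈ N, x s - (A.ρ s a - a) = x 1 := by
    intro s hs
    have h3 := ha ⟨s, hs⟩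
    simp only at h3
    rw [← h3]; abel
  have hd' : dOne A (fun g => x g - (A.ρ g a - a)) = f := by
    have h3 : (fun g => x g - (A.ρ g a - a)) = x - dZero A a := rfl
    rw [h3, dOne_sub, dOne_dZero, sub_zero, hd]
  have key1 : ∀ g, ∀ s ∈ N, x (g * s) - (A.ρ (g * s) a - a) = x g - (A.ρ g a - a) := by
    intro g s hs
    have h3 := h2 g s hs
    have h4 := hxs s hs
    have h5 : x (g * s) = A.ρ g (x s) + x g - A.ρ g (x 1) := by rw [← h3]; abel
    have h6 : x s = x 1 + (A.ρ s a - a) := by rw [← h4]; abel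
    rw [h5, h6, map_mul, Module.End.mul_apply]
    simp only [map_add, map_sub]
    abel
  refine ⟨fun g => x g - (A.ρ g a - a), ⟨key1, fun h s hs => ?_⟩, hd'⟩
  -- invariance of the values
  have h3 := h1 s hs h
  have h4 := hxs s hs
  have h5 : s * h = h * (h⁻¹ * s * h) := by group
  have h6 := key1 h (h⁻¹ * s * h) (Subgroup.Normal.conj_mem' ‹_› s hs h)
  rw [← h5] at h6
  have h7 : A.ρ s (x h) = x 1 + x (s * h) - x s := by rw [← h3]; abel
  simp only [map_sub]
  rw [h7, ← Module.End.mul_apply, ← map_mul]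
  have h8 : x (s * h) = x h - (A.ρ h a - a) + (A.ρ (s * h) a - a) := by rw [← h6]; abel
  have h9 : x s = x 1 + (A.ρ s a - a) := by rw [← h4]; abel
  rw [h8, h9]
  abel

/-- Hilbert 90 for `G` from Hilbert 90 at all finite levels (explicit form). -/
theorem H90.of_levels (𝒩 : LevelBasis G) (hA : 𝒩.Smooth A)
    (h : ∀ N, 𝒩.mem N → ∀ y : G → A, IsLevel₁ A N y →
      (∀ g h, y (g * h) = A.ρ g (y h) + y g) → ∃ a : A, ∀ g, y g = A.ρ g a - a) :
    H90 𝒩 A := by
  intro y hy hcoc
  obtain ⟨N₀, hN₀⟩ := 𝒩.nonempty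
  obtain ⟨N, hN, -, hl⟩ := 𝒩.exists_isLevel₁ hA hy hN₀
  exact h N hN y hl hcoc

end H90

section Kummer

variable {k : Type v} [CommRing k] {k' : Type v'} [CommRing k']
variable {T : Rep.{w} k G} {A : Rep.{w'} k' G}

/-- `i : T → A` identifies `T` with the `p`-torsion of the `p`-divisible module `A`. -/
structure IsKummer (i : T →+ A) (p : ℕ) : Prop where
  inj : Function.Injective i
  equivariant : ∀ g t, i (T.ρ g t) = A.ρ g (i t)
  range : ∀ a : A, p • a = 0 ↔ ∃ t, i t = a
  div : ∀ a : A, ∃ b : A, p • b = a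

variable {i : T →+ A} {p : ℕ}

lemma IsKummer.nsmul_apply (hK : IsKummer i p) (t : T) : p • i t = 0 :=
  (hK.range _).2 ⟨t, rfl⟩

lemma IsKummer.nsmul_eq_zero (hK : IsKummer i p) (t : T) : p • t = 0 :=
  hK.inj (by rw [map_nsmul, hK.nsmul_apply, map_zero])

lemma IsKummer.dOne_comp (hK : IsKummer i p) (y : G → T) (g h : G) :
    i (dOne T y (g, h)) = dOne A (fun g => i (y g)) (g, h) := by
  simp only [dOne_apply, map_add, map_sub, hK.equivariant]

lemma IsKummer.const₁_of_comp (hK : IsKummer i p) {𝒩 : LevelBasis G} {y : G → T}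
    (h : 𝒩.Const₁ (fun g => i (y g))) : 𝒩.Const₁ y := by
  obtain ⟨N, hN, h⟩ := h
  exact ⟨N, hN, fun g s hs => hK.inj (h g s hs)⟩

lemma IsKummer.const₂_of_comp (hK : IsKummer i p) {𝒩 : LevelBasis G} {c : G × G → T}
    (h : 𝒩.Const₂ (fun q => i (c q))) : 𝒩.Const₂ c := by
  obtain ⟨N, hN, h⟩ := h
  exact ⟨N, hN, fun g g' s s' hs hs' => hK.inj (h g g' s s' hs hs')⟩

lemma dOne_nsmul (n : ℕ) (x : G → A) : dOne A (n • x) = n • dOne A x := by
  funext ⟨g, h⟩
  simp only [dOne_apply, Pi.smul_apply, map_nsmul, smul_add, smul_sub]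

lemma dOne_neg (x : G → A) : dOne A (-x) = -dOne A x := by
  funext ⟨g, h⟩
  simp only [dOne_apply, Pi.neg_apply, map_neg]
  abel

/-- **Kummer, injectivity**: a `T`-valued 2-cochain which becomes the coboundary of a
level-constant cochain in `A` is the coboundary of a level-constant `T`-valued cochain. -/
theorem kummer_injective (𝒩 : LevelBasis G) (hA : 𝒩.Smooth A) (hK : IsKummer i p)
    (h90 : H90 𝒩 A) {c : G × G → T} {x : G → A} (hx : 𝒩.Const₁ x)
    (hd : dOne A x = fun q => i (c q)) :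
    ∃ y : G → T, 𝒩.Const₁ y ∧ dOne T y = c := by
  -- `p • x` is a level-constant 1-cocycle
  have hcoc : ∀ g h, p • x (g * h) = A.ρ g (p • x h) + p • x g := by
    intro g h
    have h1 : dOne A x (g, h) = i (c (g, h)) := by rw [hd]
    have h2 : p • dOne A x (g, h) = 0 := by rw [h1, hK.nsmul_apply]
    simp only [dOne_apply, smul_add, smul_sub] at h2
    rw [map_nsmul]
    have h3 : p • x (g * h) = p • (A.ρ g) (x h) + p • x g - 0 := by rw [← h2]; abel
    rw [h3, sub_zero]
  obtain ⟨a, ha⟩ := h90 (fun g => p • x g) (hx.comp (fun a => p • a)) hcoc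
  obtain ⟨b, rfl⟩ := hK.div a
  have hx' : 𝒩.Const₁ (x - dZero A b) :=
    hx.map₂ (LevelBasis.const₁_dZero hA b) (fun u v => u - v)
  have htors : ∀ g, p • (x - dZero A b) g = 0 := by
    intro g
    simp only [Pi.sub_apply, dZero_apply, smul_sub]
    rw [ha g, map_nsmul]
    abel
  choose y hy using fun g => (hK.range _).1 (htors g)
  have hy' : (fun g => i (y g)) = x - dZero A b := funext hy
  refine ⟨y, hK.const₁_of_comp (by rw [hy']; exact hx'), ?_⟩
  funext ⟨g, h⟩
  apply hK.inj
  rw [hK.dOne_comp, hy', dOne_sub, dOne_dZero, sub_zero, hd]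

/-- **Kummer, surjectivity onto the `p`-torsion**: a level-constant 2-cocycle `f` of `A` such
that `p • f` is a level-constant coboundary is cohomologous to a `T`-valued level-constant
2-cocycle. -/
theorem kummer_surjective (𝒩 : LevelBasis G) (hA : 𝒩.Smooth A) (hK : IsKummer i p)
    {f : G × G → A} (hf : 𝒩.Const₂ f)
    (hcoc : ∀ g h j, f (g * h, j) + f (g, h) = A.ρ g (f (h, j)) + f (g, h * j))
    {x : G → A} (hx : 𝒩.Const₁ x) (hd : dOne A x = p • f) :
    ∃ c : G × G → T, 𝒩.Const₂ c ∧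
      (∀ g h j, c (g * h, j) + c (g, h) = T.ρ g (c (h, j)) + c (g, h * j)) ∧
      ∃ z : G → A, 𝒩.Const₁ z ∧ dOne A z = (fun q => i (c q)) - f := by
  choose root hroot using hK.div
  have hx' : 𝒩.Const₁ (fun g => root (x g)) := hx.comp root
  have hpx' : p • (fun g => root (x g)) = x := funext fun g => hroot (x g)
  have htors : ∀ q, p • (f - dOne A (fun g => root (x g))) q = 0 := by
    intro q
    have h1 : p • dOne A (fun g => root (x g)) = p • f := by rw [← dOne_nsmul, hpx', hd]
    have h2 := congrFun h1 q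
    simp only [Pi.smul_apply] at h2
    simp only [Pi.sub_apply, smul_sub, h2, sub_self]
  choose c hc using fun q => (hK.range _).1 (htors q)
  have hc' : (fun q => i (c q)) = f - dOne A (fun g => root (x g)) := funext hc
  refine ⟨c, hK.const₂_of_comp ?_, fun g h j => hK.inj ?_, fun g => -root (x g),
    hx'.comp (fun a => -a), ?_⟩
  · rw [hc']
    exact hf.map₂ (LevelBasis.Const₁.dOne hA hx') (fun u v => u - v)
  · simp only [map_add, hK.equivariant, hc, Pi.sub_apply, map_sub]
    have h1 := dOne_cocycle (fun g => root (x g)) g h j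
    have h2 := hcoc g h j
    have h3 : f (g * h, j) = A.ρ g (f (h, j)) + f (g, h * j) - f (g, h) := by
      rw [← h2]; abel
    have h4 : dOne A (fun g => root (x g)) (g * h, j) =
        A.ρ g (dOne A (fun g => root (x g)) (h, j)) + dOne A (fun g => root (x g)) (g, h * j)
          - dOne A (fun g => root (x g)) (g, h) := by
      rw [← h1]; abel
    rw [h3, h4]
    abel
  · have h1 : (fun g => -root (x g)) = -(fun g => root (x g)) := rfl
    rw [h1, dOne_neg, hc']
    abel

/-- **Kummer in degree one**: a level-constant `T`-valued 1-cocycle is `g ↦ g a - a` for some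
`a : A` with `p • a` invariant. -/
theorem kummer_H1 (𝒩 : LevelBasis G) (hK : IsKummer i p) (h90 : H90 𝒩 A) {c : G → T}
    (hc : 𝒩.Const₁ c) (hcoc : ∀ g h, c (g * h) = T.ρ g (c h) + c g) :
    ∃ a : A, (∀ g, A.ρ g (p • a) = p • a) ∧ ∀ g, i (c g) = A.ρ g a - a := by
  obtain ⟨a, ha⟩ := h90 (fun g => i (c g)) (hc.comp i) (fun g h => by
    simp only [hcoc, map_add, hK.equivariant])
  refine ⟨a, fun g => ?_, ha⟩
  have h1 : p • (A.ρ g a - a) = 0 := by rw [← ha g, hK.nsmul_apply]
  rw [smul_sub, sub_eq_zero, ← map_nsmul] at h1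
  exact h1

/-- The Kummer cocycle of an element `a : A` with `p • a` invariant. -/
theorem exists_kummer_cocycle (𝒩 : LevelBasis G) (hA : 𝒩.Smooth A) (hK : IsKummer i p) (a : A)
    (ha : ∀ g, A.ρ g (p • a) = p • a) :
    ∃ c : G → T, 𝒩.Const₁ c ∧ (∀ g h, c (g * h) = T.ρ g (c h) + c g) ∧
      ∀ g, i (c g) = A.ρ g a - a := by
  have htors : ∀ g, p • (A.ρ g a - a) = 0 := fun g => by
    rw [smul_sub, ← map_nsmul, ha g, sub_self]
  choose c hc using fun g => (hK.range _).1 (htors g)
  refine ⟨c, hK.const₁_of_comp ?_, fun g h => hK.inj ?_, hc⟩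
  · have h1 : (fun g => i (c g)) = dZero A a := funext hc
    rw [h1]
    exact LevelBasis.const₁_dZero hA a
  · simp only [map_add, hK.equivariant, hc, map_sub, map_mul, Module.End.mul_apply]
    abel

end Kummer

end Fermat.Agent.CFT.LC
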