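/-
CFT / LC — cyclicity of the level-constant `H²` of the `p`-torsion module of a Kummer datum,
from finite-level cyclicity (abstract form, explicit cochains).
-/
import Fermat.Agent.CFT.LC.Kummer

set_option autoImplicit false

universe u v w v' w'

namespace Fermat.Agent.CFT.LC

open groupCohomology

variable {G : Type u} [Group G]

section Defs

variable {k : Type v} [CommRing k] (A : Rep.{w} k G)

/-- The explicit 2-cocycle identity. -/
def IsCoc₂ (f : G × G → A) : Prop :=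
  ∀ g h j, f (g * h, j) + f (g, h) = A.ρ g (f (h, j)) + f (g, h * j)

/-- `f` is the coboundary of a 1-cochain of level `N`. -/
def IsCobAt (N : Subgroup G) (f : G × G → A) : Prop :=
  ∃ x : G → A, IsLevel₁ A N x ∧ dOne A x = f

/-- `f` is the coboundary of a level-constant 1-cochain. -/
def LevelBasis.IsCob (𝒩 : LevelBasis G) (f : G × G → A) : Prop :=
  ∃ x : G → A, 𝒩.Const₁ x ∧ dOne A x = f

/-- The `p`-torsion of `H²` at level `N` is cyclic (explicit cochain form): any class killed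
by `p` is a multiple of any non-trivial class killed by `p`. -/
def PTorsionCyclicAt (N : Subgroup G) (p : ℕ) : Prop :=
  ∀ f f' : G × G → A, IsLevel₂ A N f → IsCoc₂ A f → IsLevel₂ A N f' → IsCoc₂ A f' →
    IsCobAt A N (p • f) → IsCobAt A N (p • f') → ¬ IsCobAt A N f →
    ∃ m : ℕ, IsCobAt A N (f' - m • f)

variable {A}

lemma IsCobAt.mono {N N' : Subgroup G} {f : G × G → A} (h : IsCobAt A N f) (hle : N' ≤ N) :
    IsCobAt A N' f := by
  obtain ⟨x, hx, hd⟩ := h
  exact ⟨x, hx.mono hle, hd⟩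

lemma IsCobAt.isCob {𝒩 : LevelBasis G} {N : Subgroup G} (hN : 𝒩.mem N) {f : G × G → A}
    (h : IsCobAt A N f) : 𝒩.IsCob A f := by
  obtain ⟨x, hx, hd⟩ := h
  exact ⟨x, hx.const₁ hN, hd⟩

lemma isLevel₁_zero (N : Subgroup G) : IsLevel₁ A N (0 : G → A) :=
  ⟨fun _ _ _ => rfl, fun _ _ _ => by simp⟩

lemma dOne_zero : dOne A (0 : G → A) = 0 := by
  funext ⟨g, h⟩
  simp [dOne]

end Defs

section Main

variable {k : Type v} [CommRing k] {k' : Type v'} [CommRing k']
variable {T : Rep.{w} k G} {A : Rep.{w'} k' G} {i : T →+ A} {p : ℕ}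

/-- **Cyclicity of the level-constant `H²(G, T)`.**  Let `i : T → A` be a Kummer datum
(`T = A[p]`, `A` `p`-divisible and smooth).  Assume Hilbert 90 on level-constant cochains of
`G` and of every member of the level basis, and that the `p`-torsion of `H²` is cyclic at every
finite level.  Let `f₀` be a 2-cocycle of level `N₁` whose class is killed by `p` and is not
trivial at level `N₁`.  Then there is a level-constant `T`-valued 2-cocycle `c₀`, cohomologous
to `f₀` in `A`, which is not a level-constant coboundary and such that every level-constant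
`T`-valued 2-cocycle is cohomologous to a multiple of `c₀`. -/
theorem exists_generator (𝒩 : LevelBasis G) (hA : 𝒩.Smooth A) (hK : IsKummer i p)
    (h90 : H90 𝒩 A) (h90N : ∀ N, 𝒩.mem N → H90On 𝒩 A N)
    (hcyc : ∀ N, 𝒩.mem N → PTorsionCyclicAt A N p)
    {N₁ : Subgroup G} (hN₁ : 𝒩.mem N₁) {f₀ : G × G → A} (hf₀ : IsLevel₂ A N₁ f₀)
    (hf₀c : IsCoc₂ A f₀) (hpf₀ : IsCobAt A N₁ (p • f₀)) (hf₀n : ¬ IsCobAt A N₁ f₀) :
    ∃ c₀ : G × G → T, 𝒩.Const₂ c₀ ∧ IsCoc₂ T c₀ ∧
      𝒩.IsCob A ((fun q => i (c₀ q)) - f₀) ∧ ¬ 𝒩.IsCob T c₀ ∧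
      ∀ c : G × G → T, 𝒩.Const₂ c → IsCoc₂ T c → ∃ m : ℕ, 𝒩.IsCob T (c - m • c₀) := by
  obtain ⟨x₀, hx₀, hdx₀⟩ := hpf₀
  obtain ⟨c₀, hc₀, hc₀c, z, hz, hdz⟩ :=
    kummer_surjective 𝒩 hA hK (hf₀.const₂ hN₁) hf₀c (hx₀.const₁ hN₁) hdx₀
  -- `f₀` is not a level-constant coboundary
  have hf₀n' : ¬ 𝒩.IsCob A f₀ := by
    rintro ⟨x, hx, hd⟩
    exact hf₀n (exists_isLevel₁_of_dOne_eq 𝒩 hN₁ (h90N N₁ hN₁) hf₀ hx hd)
  have hcomp : ∀ y : G → T, dOne A (fun g => i (y g)) = fun q => i (dOne T y q) := by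
    intro y
    funext ⟨g, h⟩
    exact (hK.dOne_comp y g h).symm
  refine ⟨c₀, hc₀, hc₀c, ⟨z, hz, hdz⟩, ?_, ?_⟩
  · rintro ⟨y, hy, hd⟩
    refine hf₀n' ⟨(fun g => i (y g)) - z, (hy.comp i).map₂ hz (fun u v => u - v), ?_⟩
    rw [dOne_sub, hdz, hcomp, hd]
    abel
  · intro c hc hcc
    -- a common level
    obtain ⟨N, hN, hle, hl⟩ := 𝒩.exists_isLevel₂ hA (hc.comp i) hN₁
    have hNn := 𝒩.normal N hN
    have hcA : IsCoc₂ A (fun q => i (c q)) := by
      intro g h j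
      have h1 := congrArg i (hcc g h j)
      simpa only [map_add, hK.equivariant] using h1
    have hpc : IsCobAt A N (p • fun q => i (c q)) := by
      refine ⟨0, isLevel₁_zero N, ?_⟩
      rw [dOne_zero]
      funext q
      simp only [Pi.zero_apply, Pi.smul_apply, hK.nsmul_apply]
    have hpf : IsCobAt A N (p • f₀) := IsCobAt.mono ⟨x₀, hx₀, hdx₀⟩ hle
    have hfn : ¬ IsCobAt A N f₀ := fun h => hf₀n' (h.isCob hN)
    obtain ⟨m, x₂, hx₂, hd₂⟩ := hcyc N hN f₀ (fun q => i (c q)) (hf₀.mono hle) hf₀c hl hcA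
      hpf hpc hfn
    refine ⟨m, ?_⟩
    have hx₃ : 𝒩.Const₁ (x₂ - m • z) :=
      (hx₂.const₁ hN).map₂ (hz.comp (fun a => m • a)) (fun u v => u - v)
    obtain ⟨y, hy, hdy⟩ := kummer_injective 𝒩 hA hK h90 (c := c - m • c₀) hx₃ (by
      rw [dOne_sub, dOne_nsmul, hd₂, hdz]
      funext q
      simp only [Pi.sub_apply, Pi.smul_apply, map_sub, map_nsmul, smul_sub]
      abel)
    exact ⟨y, hy, hdy⟩

end Main

end Fermat.Agent.CFT.LC
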