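/-
CFT / LC — cofinal level bases and Hilbert 90 along a homomorphism.

* `LevelBasis.Equiv` : two level bases which are cofinal in each other define the same
  level-constant cochains, smooth modules and level-constant coboundaries.
* `H90Along 𝒩 A j` : Hilbert 90 for cochains on a group `H` mapping to `G` via `j`;
  `H90On.of_along_equiv` transports it to a subgroup of `G` isomorphic to `H`.
-/
import Fermat.Agent.CFT.LC.Cyclic

set_option autoImplicit false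

universe u v w

namespace Fermat.Agent.CFT.LC

variable {G : Type u} [Group G]

namespace LevelBasis

/-- Two level bases are cofinal in each other. -/
def Equiv (𝒩 𝒩' : LevelBasis G) : Prop :=
  (∀ N, 𝒩.mem N → ∃ N', 𝒩'.mem N' ∧ N' ≤ N) ∧ (∀ N', 𝒩'.mem N' → ∃ N, 𝒩.mem N ∧ N ≤ N')

variable {𝒩 𝒩' : LevelBasis G}

lemma Equiv.symm (h : 𝒩.Equiv 𝒩') : 𝒩'.Equiv 𝒩 := ⟨h.2, h.1⟩

lemma Equiv.const₁ (h : 𝒩.Equiv 𝒩') {X : Type*} {f : G → X} (hf : 𝒩.Const₁ f) :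
    𝒩'.Const₁ f := by
  obtain ⟨N, hN, hc⟩ := hf
  obtain ⟨N', hN', hle⟩ := h.1 N hN
  exact ⟨N', hN', fun g s hs => hc g s (hle hs)⟩

lemma Equiv.const₁_iff (h : 𝒩.Equiv 𝒩') {X : Type*} (f : G → X) :
    𝒩.Const₁ f ↔ 𝒩'.Const₁ f :=
  ⟨h.const₁, h.symm.const₁⟩

lemma Equiv.const₂ (h : 𝒩.Equiv 𝒩') {X : Type*} {f : G × G → X} (hf : 𝒩.Const₂ f) :
    𝒩'.Const₂ f := by
  obtain ⟨N, hN, hc⟩ := hf
  obtain ⟨N', hN', hle⟩ := h.1 N hN
  exact ⟨N', hN', fun g g' s s' hs hs' => hc g g' s s' (hle hs) (hle hs')⟩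

lemma Equiv.const₂_iff (h : 𝒩.Equiv 𝒩') {X : Type*} (f : G × G → X) :
    𝒩.Const₂ f ↔ 𝒩'.Const₂ f :=
  ⟨h.const₂, h.symm.const₂⟩

lemma Equiv.smooth (h : 𝒩.Equiv 𝒩') {k : Type v} [CommRing k] {A : Rep.{w} k G}
    (hA : 𝒩.Smooth A) : 𝒩'.Smooth A := by
  intro a
  obtain ⟨N, hN, hc⟩ := hA a
  obtain ⟨N', hN', hle⟩ := h.1 N hN
  exact ⟨N', hN', fun s hs => hc s (hle hs)⟩

lemma Equiv.isCob_iff (h : 𝒩.Equiv 𝒩') {k : Type v} [CommRing k] (A : Rep.{w} k G)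
    (f : G × G → A) : 𝒩.IsCob A f ↔ 𝒩'.IsCob A f := by
  constructor
  · rintro ⟨x, hx, hd⟩
    exact ⟨x, h.const₁ hx, hd⟩
  · rintro ⟨x, hx, hd⟩
    exact ⟨x, h.symm.const₁ hx, hd⟩

end LevelBasis

section Along

variable {k : Type v} [CommRing k]

/-- Hilbert 90 for level-constant cochains on a group `H` mapping to `G`. -/
def H90Along (𝒩 : LevelBasis G) (A : Rep.{w} k G) {H : Type*} [Group H] (j : H →* G) : Prop :=
  ∀ y : H → A, (∃ N', 𝒩.mem N' ∧ ∀ t s : H, j s ∈ N' → y (t * s) = y t) →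
    (∀ s t : H, y (s * t) = A.ρ (j s) (y t) + y s) →
    ∃ a : A, ∀ s : H, y s = A.ρ (j s) a - a

variable {𝒩 : LevelBasis G} {A : Rep.{w} k G}

/-- Transport of Hilbert 90 to a subgroup along an isomorphism. -/
theorem H90On.of_along_equiv {N : Subgroup G} {H : Type*} [Group H] (e : H ≃* N)
    (h : H90Along 𝒩 A (N.subtype.comp e.toMonoidHom)) : H90On 𝒩 A N := by
  intro y hy hcoc
  obtain ⟨N', hN', hc⟩ := hy
  obtain ⟨a, ha⟩ := h (fun s => y (e s))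
    ⟨N', hN', fun t s hs => by
      show y (e (t * s)) = y (e t)
      rw [map_mul]
      exact hc (e t) (e s) hs⟩
    (fun s t => by
      show y (e (s * t)) = A.ρ ((e s : N) : G) (y (e t)) + y (e s)
      rw [map_mul]
      exact hcoc (e s) (e t))
  refine ⟨a, fun s => ?_⟩
  have h1 := ha (e.symm s)
  simp only [MulEquiv.apply_symm_apply] at h1
  rw [h1]
  simp

end Along

end Fermat.Agent.CFT.LC
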