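/-
CFT / LC — dictionary between explicit cochains of level `N` and Mathlib's group cohomology of
the finite layer `(G ⧸ N, A^N)` (`Rep.quotientToInvariants`).

* `inflFun₁ / inflFun₂` : inflation of cochains of the layer; a cochain of `G` has level `N`
  iff it is such an inflation;
* `isCoc₂_inflFun₂_iff`, `isCobAt_inflFun₂_iff` : cocycles and coboundaries correspond;
* `pTorsionCyclicAt_of_isAddCyclic` : a cyclic `H²(G ⧸ N, A^N)` gives `PTorsionCyclicAt A N p`;
* `exists_of_isLevel₁_of_isZero` : `H¹(G ⧸ N, A^N) = 0` gives Hilbert 90 at level `N`;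
* `exists_level_cocycle_of_class` : a nonzero class killed by `p` gives an explicit cocycle.
-/
import Fermat.Agent.CFT.LC.Cyclic

set_option autoImplicit false

universe u

namespace Fermat.Agent.CFT.LC

open groupCohomology CategoryTheory

variable {k G : Type u} [CommRing k] [Group G] (A : Rep.{u} k G) (N : Subgroup G) [N.Normal]

/-- Inflation of a 1-cochain of the layer `(G ⧸ N, A^N)`. -/
def inflFun₁ (ψ : G ⧸ N → A.quotientToInvariants N) : G → A :=
  fun g => ((ψ (g : G ⧸ N) : A.quotientToInvariants N) : A)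

/-- Inflation of a 2-cochain of the layer `(G ⧸ N, A^N)`. -/
def inflFun₂ (φ : (G ⧸ N) × (G ⧸ N) → A.quotientToInvariants N) : G × G → A :=
  fun q => ((φ ((q.1 : G ⧸ N), (q.2 : G ⧸ N)) : A.quotientToInvariants N) : A)

variable {A N}

@[simp] lemma inflFun₁_apply (ψ : G ⧸ N → A.quotientToInvariants N) (g : G) :
    inflFun₁ A N ψ g = ((ψ (g : G ⧸ N) : A.quotientToInvariants N) : A) := rfl

@[simp] lemma inflFun₂_apply (φ : (G ⧸ N) × (G ⧸ N) → A.quotientToInvariants N) (g h : G) :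
    inflFun₂ A N φ (g, h) = ((φ ((g : G ⧸ N), (h : G ⧸ N)) : A.quotientToInvariants N) : A) :=
  rfl

lemma ρ_coe_invariants (v : A.quotientToInvariants N) (s : G) (hs : s ∈ N) :
    A.ρ s (v : A) = v :=
  v.2 ⟨s, hs⟩

lemma coe_ρ_quotient (g : G) (v : A.quotientToInvariants N) :
    (((A.quotientToInvariants N).ρ (g : G ⧸ N) v : A.quotientToInvariants N) : A) =
      A.ρ g (v : A) := rfl

lemma isLevel₁_inflFun₁ (ψ : G ⧸ N → A.quotientToInvariants N) :
    IsLevel₁ A N (inflFun₁ A N ψ) := by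
  refine ⟨fun g s hs => ?_, fun g s hs => ρ_coe_invariants _ s hs⟩
  simp only [inflFun₁_apply]
  rw [QuotientGroup.mk_mul_of_mem g hs]

lemma isLevel₂_inflFun₂ (φ : (G ⧸ N) × (G ⧸ N) → A.quotientToInvariants N) :
    IsLevel₂ A N (inflFun₂ A N φ) := by
  refine ⟨fun g g' s s' hs hs' => ?_, fun g g' s hs => ρ_coe_invariants _ s hs⟩
  simp only [inflFun₂_apply]
  rw [QuotientGroup.mk_mul_of_mem g hs, QuotientGroup.mk_mul_of_mem g' hs']

lemma inflFun₁_injective : Function.Injective (inflFun₁ A N) := by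
  intro ψ ψ' h
  funext q
  induction q using QuotientGroup.induction_on with | H g =>
  exact Subtype.ext (congrFun h g)

lemma inflFun₂_injective : Function.Injective (inflFun₂ A N) := by
  intro φ φ' h
  funext ⟨q, q'⟩
  induction q using QuotientGroup.induction_on with | H g =>
  induction q' using QuotientGroup.induction_on with | H g' =>
  exact Subtype.ext (congrFun h (g, g'))

lemma exists_inflFun₁_eq {x : G → A} (hx : IsLevel₁ A N x) : ∃ ψ, inflFun₁ A N ψ = x := by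
  refine ⟨fun q => ⟨x q.out, fun s => hx.2 _ s s.2⟩, funext fun g => ?_⟩
  obtain ⟨s, hs⟩ := QuotientGroup.mk_out_eq_mul N g
  show x (g : G ⧸ N).out = x g
  rw [hs, hx.1 g s s.2]

lemma exists_inflFun₂_eq {f : G × G → A} (hf : IsLevel₂ A N f) : ∃ φ, inflFun₂ A N φ = f := by
  refine ⟨fun q => ⟨f (q.1.out, q.2.out), fun s => hf.2 _ _ s s.2⟩, funext fun ⟨g, g'⟩ => ?_⟩
  obtain ⟨s, hs⟩ := QuotientGroup.mk_out_eq_mul N g
  obtain ⟨s', hs'⟩ := QuotientGroup.mk_out_eq_mul N g'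
  show f ((g : G ⧸ N).out, (g' : G ⧸ N).out) = f (g, g')
  rw [hs, hs', hf.1 g g' s s' s.2 s'.2]

lemma dOne_inflFun₁ (ψ : G ⧸ N → A.quotientToInvariants N) :
    dOne A (inflFun₁ A N ψ) = inflFun₂ A N (dOne (A.quotientToInvariants N) ψ) := by
  funext ⟨g, h⟩
  simp only [dOne_apply, inflFun₁_apply, inflFun₂_apply, QuotientGroup.mk_mul]
  rfl

lemma inflFun₂_add (φ φ' : (G ⧸ N) × (G ⧸ N) → A.quotientToInvariants N) :
    inflFun₂ A N (φ + φ') = inflFun₂ A N φ + inflFun₂ A N φ' := rfl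

lemma inflFun₂_sub (φ φ' : (G ⧸ N) × (G ⧸ N) → A.quotientToInvariants N) :
    inflFun₂ A N (φ - φ') = inflFun₂ A N φ - inflFun₂ A N φ' := rfl

lemma inflFun₂_nsmul (n : ℕ) (φ : (G ⧸ N) × (G ⧸ N) → A.quotientToInvariants N) :
    inflFun₂ A N (n • φ) = n • inflFun₂ A N φ := rfl

lemma isCoc₂_inflFun₂_iff (φ : (G ⧸ N) × (G ⧸ N) → A.quotientToInvariants N) :
    IsCoc₂ A (inflFun₂ A N φ) ↔ φ ∈ cocycles₂ (A.quotientToInvariants N) := by
  rw [mem_cocycles₂_iff]
  constructor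
  · intro h q₁ q₂ q₃
    induction q₁ using QuotientGroup.induction_on with | H g =>
    induction q₂ using QuotientGroup.induction_on with | H h' =>
    induction q₃ using QuotientGroup.induction_on with | H j =>
    exact Subtype.ext (h g h' j)
  · intro h g h' j
    have h1 := congrArg (fun v : A.quotientToInvariants N => (v : A))
      (h (g : G ⧸ N) (h' : G ⧸ N) (j : G ⧸ N))
    exact h1

lemma isCobAt_inflFun₂_iff (φ : (G ⧸ N) × (G ⧸ N) → A.quotientToInvariants N) :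
    IsCobAt A N (inflFun₂ A N φ) ↔ φ ∈ coboundaries₂ (A.quotientToInvariants N) := by
  constructor
  · rintro ⟨x, hx, hd⟩
    obtain ⟨ψ, rfl⟩ := exists_inflFun₁_eq hx
    rw [dOne_inflFun₁] at hd
    have h1 := inflFun₂_injective hd
    refine ⟨ψ, ?_⟩
    rw [d₁₂_hom_eq_dOne, h1]
  · rintro ⟨ψ, hψ⟩
    refine ⟨inflFun₁ A N ψ, isLevel₁_inflFun₁ ψ, ?_⟩
    rw [dOne_inflFun₁, ← d₁₂_hom_eq_dOne, hψ]

/-- In a cyclic group, an element killed by the prime `p` is a multiple of any nonzero element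
killed by `p`. -/
lemma exists_nsmul_eq_of_isAddCyclic {X : Type*} [AddCommGroup X] [IsAddCyclic X] {p : ℕ}
    (hp : p.Prime) {x x' : X} (hx : p • x = 0) (hx' : p • x' = 0) (hx0 : x ≠ 0) :
    ∃ m : ℕ, x' = m • x := by
  obtain ⟨g, hg⟩ := IsAddCyclic.exists_generator (α := X)
  obtain ⟨a, rfl⟩ := AddSubgroup.mem_zmultiples_iff.1 (hg x)
  obtain ⟨b, rfl⟩ := AddSubgroup.mem_zmultiples_iff.1 (hg x')
  -- the order of `g`
  by_cases hord : ∃ n : ℤ, n ≠ 0 ∧ n • g = 0
  · -- finite order: reduce to the subgroup of multiples killed by `p`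
    -- `d := addOrderOf g`
    have hdpos : 0 < addOrderOf g := by
      obtain ⟨n, hn0, hn⟩ := hord
      exact addOrderOf_pos_iff.2 (isOfFinAddOrder_iff_zsmul_eq_zero.2 ⟨n, hn0, hn⟩)
    set d := addOrderOf g with hd
    have hdvd : ∀ n : ℤ, n • g = 0 ↔ (d : ℤ) ∣ n := fun n =>
      (addOrderOf_dvd_iff_zsmul_eq_zero).symm
    have h1 : (d : ℤ) ∣ p * a := (hdvd _).1 (by
      rw [mul_smul]; exact_mod_cast hx)
    have h2 : (d : ℤ) ∣ p * b := (hdvd _).1 (by
      rw [mul_smul]; exact_mod_cast hx')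
    have h3 : ¬ (d : ℤ) ∣ a := fun h => hx0 ((hdvd a).2 h)
    -- `p ∣ d`, write `d = p * e`; then `e ∣ a`, `e ∣ b`, `a = e * a'` with `p ∤ a'`
    have hpd : (p : ℤ) ∣ d := by
      by_contra hnd
      have hcop : IsCoprime (d : ℤ) (p : ℤ) :=
        ((Nat.prime_iff_prime_int.1 hp).coprime_iff_not_dvd.2 hnd).symm
      exact h3 (hcop.dvd_of_dvd_mul_left h1)
    obtain ⟨e, he⟩ := hpd
    have hp0 : (p : ℤ) ≠ 0 := by exact_mod_cast hp.ne_zero
    have hea : e ∣ a := by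
      rw [he] at h1
      exact (mul_dvd_mul_iff_left hp0).1 h1
    have heb : e ∣ b := by
      rw [he] at h2
      exact (mul_dvd_mul_iff_left hp0).1 h2
    obtain ⟨a', rfl⟩ := hea
    obtain ⟨b', rfl⟩ := heb
    have hpa' : ¬ (p : ℤ) ∣ a' := by
      intro h
      apply h3
      rw [he]
      obtain ⟨c, rfl⟩ := h
      exact ⟨c, by ring⟩
    have hcop : IsCoprime (p : ℤ) a' :=
      (Nat.prime_iff_prime_int.1 hp).coprime_iff_not_dvd.2 hpa'
    obtain ⟨u, v, huv⟩ := hcop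
    -- `b' ≡ b' * v * a'  (mod p)`
    have key : (e * b') • g = (b' * v) • (e * a') • g := by
      rw [← mul_smul, ← sub_eq_zero, ← sub_smul, hdvd, he]
      refine ⟨b' * u, ?_⟩
      linear_combination (-(e * b')) * huv
    have hpx : (p : ℤ) • (e * a') • g = 0 := by exact_mod_cast hx
    refine ⟨((b' * v) % p).toNat, ?_⟩
    rw [key, ← natCast_zsmul, Int.toNat_of_nonneg (Int.emod_nonneg _ hp0)]
    generalize (e * a') • g = y at hpx ⊢
    have h5 : (b' * v) • y = ((b' * v) % p) • y + ((b' * v) / p) • ((p : ℤ) • y) := by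
      rw [← mul_smul, ← add_smul, mul_comm ((b' * v) / p) (p : ℤ), Int.emod_add_mul_ediv]
    rw [h5, hpx, smul_zero, add_zero]
  · -- infinite order: `p • x = 0` forces `x = 0`
    exfalso
    apply hx0
    have h1 : ((p : ℤ) * a) • g = 0 := by rw [mul_smul]; exact_mod_cast hx
    by_contra h2
    apply hord
    refine ⟨p * a, mul_ne_zero (by exact_mod_cast hp.ne_zero) ?_, h1⟩
    rintro rfl
    exact h2 (zero_smul _ _)

/-- A cyclic `H²(G ⧸ N, A^N)` has cyclic `p`-torsion in the explicit cochain sense. -/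
theorem pTorsionCyclicAt_of_isAddCyclic {p : ℕ} (hp : p.Prime)
    (h : IsAddCyclic (groupCohomology (A.quotientToInvariants N) 2)) :
    PTorsionCyclicAt A N p := by
  intro f f' hf hfc hf' hfc' hpf hpf' hfn
  obtain ⟨φ, rfl⟩ := exists_inflFun₂_eq hf
  obtain ⟨φ', rfl⟩ := exists_inflFun₂_eq hf'
  rw [isCoc₂_inflFun₂_iff] at hfc hfc'
  rw [← inflFun₂_nsmul, isCobAt_inflFun₂_iff] at hpf hpf'
  rw [isCobAt_inflFun₂_iff] at hfn
  have hx : p • H2π (A.quotientToInvariants N) ⟨φ, hfc⟩ = 0 := by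
    rw [← map_nsmul]
    exact (H2π_eq_zero_iff _).2 hpf
  have hx' : p • H2π (A.quotientToInvariants N) ⟨φ', hfc'⟩ = 0 := by
    rw [← map_nsmul]
    exact (H2π_eq_zero_iff _).2 hpf'
  have hx0 : H2π (A.quotientToInvariants N) ⟨φ, hfc⟩ ≠ 0 := fun h0 =>
    hfn ((H2π_eq_zero_iff _).1 h0)
  obtain ⟨m, hm⟩ := exists_nsmul_eq_of_isAddCyclic hp hx hx' hx0
  refine ⟨m, ?_⟩
  rw [← inflFun₂_nsmul, ← inflFun₂_sub, isCobAt_inflFun₂_iff]
  have h1 : H2π (A.quotientToInvariants N) (⟨φ', hfc'⟩ - m • ⟨φ, hfc⟩) = 0 := by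
    rw [map_sub, map_nsmul, hm, sub_self]
  exact (H2π_eq_zero_iff _).1 h1

/-- `H¹(G ⧸ N, A^N) = 0` gives Hilbert 90 for cochains of level `N`. -/
theorem exists_of_isLevel₁_of_isZero
    (h : Limits.IsZero (groupCohomology (A.quotientToInvariants N) 1)) {y : G → A}
    (hy : IsLevel₁ A N y) (hcoc : ∀ g h, y (g * h) = A.ρ g (y h) + y g) :
    ∃ a : A, (∀ s ∈ N, A.ρ s a = a) ∧ ∀ g, y g = A.ρ g a - a := by
  obtain ⟨ψ, rfl⟩ := exists_inflFun₁_eq hy
  have hψ : ψ ∈ cocycles₁ (A.quotientToInvariants N) := by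
    rw [mem_cocycles₁_iff]
    intro q₁ q₂
    induction q₁ using QuotientGroup.induction_on with | H g =>
    induction q₂ using QuotientGroup.induction_on with | H h' =>
    exact Subtype.ext (hcoc g h')
  have h0 : H1π (A.quotientToInvariants N) ⟨ψ, hψ⟩ = 0 :=
    (ModuleCat.isZero_iff_subsingleton.1 h).elim _ _
  obtain ⟨a, ha⟩ := (H1π_eq_zero_iff _).1 h0
  refine ⟨(a : A), fun s hs => ρ_coe_invariants a s hs, fun g => ?_⟩
  have h1 := congrFun ha (g : G ⧸ N)
  have h2 := congrArg (fun v : A.quotientToInvariants N => (v : A)) h1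
  exact h2.symm

/-- A nonzero class of `H²(G ⧸ N, A^N)` killed by `p` is represented by an explicit cocycle of
level `N`. -/
theorem exists_level_cocycle_of_class {p : ℕ}
    (x : groupCohomology (A.quotientToInvariants N) 2) (hx0 : x ≠ 0) (hpx : p • x = 0) :
    ∃ f₀ : G × G → A, IsLevel₂ A N f₀ ∧ IsCoc₂ A f₀ ∧ IsCobAt A N (p • f₀) ∧
      ¬ IsCobAt A N f₀ := by
  induction x using H2_induction_on with | h φ =>
  refine ⟨inflFun₂ A N φ, isLevel₂_inflFun₂ _, (isCoc₂_inflFun₂_iff _).2 φ.2, ?_, ?_⟩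
  · rw [← inflFun₂_nsmul, isCobAt_inflFun₂_iff]
    rw [← map_nsmul] at hpx
    exact (H2π_eq_zero_iff _).1 hpx
  · rw [isCobAt_inflFun₂_iff]
    exact fun h => hx0 ((H2π_eq_zero_iff _).2 h)

end Fermat.Agent.CFT.LC
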