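/-
CFT / LC — the level basis of a level structure `r : G →* Gal(ℚ̄/ℚ)` and the Prelude's
`continuousH2`.

* `lev r F`, `basisOf r` : the level subgroups `r⁻¹(Fix F)` (`F/ℚ` finite normal) form a
  `LevelBasis`; `const₁_basisOf_iff / const₂_basisOf_iff` identify level-constancy with the
  Prelude's `IsLevelConstant₁ / IsLevelConstant₂`.
* `exists_generator_continuousH2`, `finrank_continuousH2_eq_one` : for a Kummer datum
  `i : T → A` over `𝔽_p`, `continuousH2 r T` is one-dimensional, given Hilbert 90 and cyclicity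
  of `H²` at finite levels, and one finite-level class of order `p`.
-/
import Fermat.Agent.CFT.LC.Finite
import Fermat.Agent.CFT.LC.Along
import Fermat.Prelude.Def_GroupCohomology_ContinuousH2

set_option autoImplicit false

universe u

namespace Fermat.Agent.CFT.LC

open groupCohomology CategoryTheory

local notation "Qb" => AlgebraicClosure ℚ

local instance isAlgebraicQbar_lc : Algebra.IsAlgebraic ℚ (AlgebraicClosure ℚ) :=
  AlgebraicClosure.isAlgebraic ℚ
local instance isAlgClosureQbar_lc : IsAlgClosure ℚ (AlgebraicClosure ℚ) :=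
  ⟨inferInstance, inferInstance⟩
local instance normalQbar_lc : Normal ℚ (AlgebraicClosure ℚ) :=
  IsAlgClosure.normal ℚ (AlgebraicClosure ℚ)

section Basis

variable {G : Type u} [Group G] (r : G →* (Qb ≃ₐ[ℚ] Qb))

/-- The level subgroup `r⁻¹(Fix F)`. -/
noncomputable def lev (F : IntermediateField ℚ Qb) : Subgroup G := F.fixingSubgroup.comap r

lemma mem_lev_iff (F : IntermediateField ℚ Qb) (g : G) : g ∈ lev r F ↔ r g ∈ F.fixingSubgroup :=
  Iff.rfl

lemma lev_antitone {F F' : IntermediateField ℚ Qb} (h : F ≤ F') : lev r F' ≤ lev r F :=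
  fun _ hg => IntermediateField.fixingSubgroup_antitone h hg

lemma lev_eq_ker (F : IntermediateField ℚ Qb) [Normal ℚ F] :
    lev r F = ((AlgEquiv.restrictNormalHom (F := ℚ) (K₁ := Qb) F).comp r).ker := by
  have h := @IntermediateField.restrictNormalHom_ker ℚ Qb _ _ _ F ‹Normal ℚ F›
  ext g
  rw [mem_lev_iff, MonoidHom.mem_ker, MonoidHom.comp_apply, ← MonoidHom.mem_ker]
  exact (SetLike.ext_iff.1 h (r g)).symm

lemma lev_normal (F : IntermediateField ℚ Qb) [Normal ℚ F] : (lev r F).Normal := by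
  rw [lev_eq_ker]
  exact MonoidHom.normal_ker _

lemma lev_finiteIndex (F : IntermediateField ℚ Qb) [FiniteDimensional ℚ F] [Normal ℚ F] :
    (lev r F).FiniteIndex := by
  rw [lev_eq_ker]
  exact Subgroup.finiteIndex_ker _

lemma lev_sup (F F' : IntermediateField ℚ Qb) : lev r (F ⊔ F') = lev r F ⊓ lev r F' := by
  unfold lev
  rw [IntermediateField.fixingSubgroup_sup, Subgroup.comap_inf]

/-- The level basis of a level structure: the subgroups `r⁻¹(Fix F)`, `F/ℚ` finite normal. -/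
def basisOf : LevelBasis G where
  mem N := ∃ F : IntermediateField ℚ Qb, FiniteDimensional ℚ F ∧ Normal ℚ F ∧ N = lev r F
  normal := by
    rintro _ ⟨F, _, _, rfl⟩
    exact lev_normal r F
  finiteIndex := by
    rintro _ ⟨F, _, _, rfl⟩
    exact lev_finiteIndex r F
  directed := by
    rintro _ _ ⟨F, hF, hFn, rfl⟩ ⟨F', hF', hFn', rfl⟩
    refine ⟨lev r (F ⊔ F'), ⟨F ⊔ F', inferInstance, ?_, rfl⟩, (lev_sup r F F').le⟩
    exact @IntermediateField.normal_sup ℚ Qb _ _ _ F F' hFn hFn'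
  nonempty := ⟨lev r ⊥, ⊥, inferInstance,
    Normal.of_algEquiv (IntermediateField.botEquiv ℚ Qb).symm, rfl⟩

lemma mem_basisOf_lev (F : IntermediateField ℚ Qb) [FiniteDimensional ℚ F] [Normal ℚ F] :
    (basisOf r).mem (lev r F) :=
  ⟨F, inferInstance, inferInstance, rfl⟩

/-- Every finite subextension is contained in a finite normal one. -/
lemma exists_normal_ge (F : IntermediateField ℚ Qb) [FiniteDimensional ℚ F] :
    ∃ F' : IntermediateField ℚ Qb, FiniteDimensional ℚ F' ∧ Normal ℚ F' ∧ F ≤ F' :=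
  ⟨IntermediateField.normalClosure ℚ F Qb, inferInstance, normalClosure.normal ℚ F Qb,
    F.le_normalClosure⟩

theorem const₁_basisOf_iff {X : Type*} (f : G → X) :
    (basisOf r).Const₁ f ↔ IsLevelConstant₁ r f := by
  constructor
  · rintro ⟨_, ⟨F, hF, _, rfl⟩, h⟩
    exact ⟨F, hF, fun g s hs => h g s hs⟩
  · rintro ⟨F, hF, h⟩
    obtain ⟨F', hF', hFn', hle⟩ := exists_normal_ge F
    exact ⟨lev r F', ⟨F', hF', hFn', rfl⟩, fun g s hs => h g s (lev_antitone r hle hs)⟩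

theorem const₂_basisOf_iff {X : Type*} (f : G × G → X) :
    (basisOf r).Const₂ f ↔ IsLevelConstant₂ r f := by
  constructor
  · rintro ⟨_, ⟨F, hF, _, rfl⟩, h⟩
    exact ⟨F, hF, fun g g' s s' hs hs' => h g g' s s' hs hs'⟩
  · rintro ⟨F, hF, h⟩
    obtain ⟨F', hF', hFn', hle⟩ := exists_normal_ge F
    exact ⟨lev r F', ⟨F', hF', hFn', rfl⟩, fun g g' s s' hs hs' =>
      h g g' s s' (lev_antitone r hle hs) (lev_antitone r hle hs')⟩

/-- Smoothness for `basisOf r` in terms of arbitrary finite subextensions. -/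
theorem smooth_basisOf_iff {k : Type*} [CommRing k] (A : Rep k G) :
    (basisOf r).Smooth A ↔ ∀ a : A, ∃ F : IntermediateField ℚ Qb, FiniteDimensional ℚ F ∧
      ∀ s, r s ∈ F.fixingSubgroup → A.ρ s a = a := by
  constructor
  · intro h a
    obtain ⟨_, ⟨F, hF, _, rfl⟩, h⟩ := h a
    exact ⟨F, hF, fun s hs => h s hs⟩
  · intro h a
    obtain ⟨F, hF, h⟩ := h a
    obtain ⟨F', hF', hFn', hle⟩ := exists_normal_ge F
    exact ⟨lev r F', ⟨F', hF', hFn', rfl⟩, fun s hs => h s (lev_antitone r hle hs)⟩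

end Basis

section ContH2

variable {k G : Type u} [CommRing k] [Group G] (r : G →* (Qb ≃ₐ[ℚ] Qb)) (M : Rep.{u} k G)

lemma mem_levelCocycles₂_iff_isCoc₂ (f : G × G → M) :
    f ∈ levelCocycles₂ r M ↔ IsCoc₂ M f ∧ (basisOf r).Const₂ f := by
  rw [mem_levelCocycles₂_iff, mem_cocycles₂_iff, const₂_basisOf_iff]
  rfl

lemma mem_levelCoboundaries₂_iff_isCob (f : G × G → M) :
    f ∈ levelCoboundaries₂ r M ↔ (basisOf r).IsCob M f := by
  rw [mem_levelCoboundaries₂_iff]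
  constructor
  · rintro ⟨x, hx, hd⟩
    exact ⟨x, (const₁_basisOf_iff r x).2 hx, by rw [← d₁₂_hom_eq_dOne, hd]⟩
  · rintro ⟨x, hx, hd⟩
    exact ⟨x, (const₁_basisOf_iff r x).1 hx, by rw [d₁₂_hom_eq_dOne, hd]⟩

end ContH2

section Main

variable {G : Type} [Group G] (r : G →* (Qb ≃ₐ[ℚ] Qb)) {p : ℕ} [Fact p.Prime]
variable {k' : Type} [CommRing k'] (T : Rep.{0} (ZMod p) G) (A : Rep.{0} k' G)

/-- **Generator of `continuousH2 r T`.**  Abstract form of "`H²(G_E, μ_p)` is cyclic of order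
`p`": for a level basis `𝒩` cofinal with the levels of `r`, a Kummer datum `i : T → A`
(`T = A[p]`, `A` smooth and `p`-divisible), Hilbert 90 on level-constant cochains of `G` and of
all level subgroups, cyclic `p`-torsion of `H²` at every finite level and one finite-level
class of exact order `p`. -/
theorem exists_generator_continuousH2 (𝒩 : LevelBasis G) (h𝒩 : 𝒩.Equiv (basisOf r))
    (i : T →+ A) (hK : IsKummer i p)
    (hA : 𝒩.Smooth A) (h90 : H90 𝒩 A)
    (h90N : ∀ N, 𝒩.mem N → H90On 𝒩 A N)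
    (hcyc : ∀ N, 𝒩.mem N → PTorsionCyclicAt A N p)
    (hord : ∃ N, 𝒩.mem N ∧ ∃ f₀ : G × G → A, IsLevel₂ A N f₀ ∧ IsCoc₂ A f₀ ∧
      IsCobAt A N (p • f₀) ∧ ¬ IsCobAt A N f₀) :
    ∃ u : continuousH2 r T, u ≠ 0 ∧ ∀ x : continuousH2 r T, ∃ m : ℕ, x = m • u := by
  obtain ⟨N₁, hN₁, f₀, hf₀, hf₀c, hpf₀, hf₀n⟩ := hord
  obtain ⟨c₀, hc₀, hc₀c, -, hc₀n, hgen⟩ :=
    exists_generator 𝒩 hA hK h90 h90N hcyc hN₁ hf₀ hf₀c hpf₀ hf₀n
  have hc₀mem : c₀ ∈ levelCocycles₂ r T :=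
    (mem_levelCocycles₂_iff_isCoc₂ r T c₀).2 ⟨hc₀c, h𝒩.const₂ hc₀⟩
  refine ⟨continuousH2π r T ⟨c₀, hc₀mem⟩, ?_, ?_⟩
  · intro h0
    rw [continuousH2π_eq_zero_iff, mem_levelCoboundaries₂_iff_isCob,
      ← h𝒩.isCob_iff] at h0
    exact hc₀n h0
  · intro x
    obtain ⟨⟨c, hc⟩, rfl⟩ := Submodule.mkQ_surjective _ x
    obtain ⟨hcc, hcl⟩ := (mem_levelCocycles₂_iff_isCoc₂ r T c).1 hc
    obtain ⟨m, hm⟩ := hgen c (h𝒩.symm.const₂ hcl) hcc
    refine ⟨m, ?_⟩
    have h1 : continuousH2π r T (⟨c, hc⟩ - m • ⟨c₀, hc₀mem⟩) = 0 := by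
      rw [continuousH2π_eq_zero_iff, mem_levelCoboundaries₂_iff_isCob, ← h𝒩.isCob_iff]
      exact hm
    rw [map_sub, map_nsmul, sub_eq_zero] at h1
    exact h1

/-- **`continuousH2 r T` is one-dimensional** (abstract form of `dim H²(G_E, μ_p) = 1`). -/
theorem finrank_continuousH2_eq_one (𝒩 : LevelBasis G) (h𝒩 : 𝒩.Equiv (basisOf r))
    (i : T →+ A) (hK : IsKummer i p)
    (hA : 𝒩.Smooth A) (h90 : H90 𝒩 A)
    (h90N : ∀ N, 𝒩.mem N → H90On 𝒩 A N)
    (hcyc : ∀ N, 𝒩.mem N → PTorsionCyclicAt A N p)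
    (hord : ∃ N, 𝒩.mem N ∧ ∃ f₀ : G × G → A, IsLevel₂ A N f₀ ∧ IsCoc₂ A f₀ ∧
      IsCobAt A N (p • f₀) ∧ ¬ IsCobAt A N f₀) :
    Module.finrank (ZMod p) (continuousH2 r T) = 1 := by
  obtain ⟨u, hu, hgen⟩ :=
    exists_generator_continuousH2 r T A 𝒩 h𝒩 i hK hA h90 h90N hcyc hord
  rw [finrank_eq_one_iff']
  refine ⟨u, hu, fun w => ?_⟩
  obtain ⟨m, rfl⟩ := hgen w
  exact ⟨(m : ZMod p), by rw [Nat.cast_smul_eq_nsmul]⟩

end Main

end Fermat.Agent.CFT.LC
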